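import Mathlib.SetTheory.Cardinal.Regular
import Mathlib.SetTheory.Cardinal.Continuum
import Fermat.Agent.Coanalytic.Levels

/-!
# Compatible partial functions

More than continuum many countable partial functions into a countable set contain infinitely many
pairwise compatible ones.  Iterating this gives, for finite partial functions indexed by tuples
from large sets, infinite boxes of tuples with pairwise compatible values.
-/

set_option autoImplicit false

universe u v

namespace FA.HalpernLauchli

open Set Cardinal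
open scoped Ordinal

variable {D : Type u} {V : Type v}

/-- Two partial functions agree where both are defined. -/
def Compat (p q : D → Option V) : Prop :=
  ∀ x a b, p x = some a → q x = some b → a = b

theorem compat_self (p : D → Option V) : Compat p p :=
  fun _ _ _ ha hb => Option.some_injective _ (ha.symm.trans hb)

theorem Compat.symm {p q : D → Option V} (h : Compat p q) : Compat q p :=
  fun x a b ha hb => (h x b a hb ha).symm

/-- A class of a relation has few chosen representatives, all of them if there are few. -/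
theorem exists_representatives {ι : Type u} (S : Set ι) :
    ∃ W ⊆ S, W.Countable ∧ (W.Infinite ∨ W = S) := by
  by_cases h : S.Finite
  · exact ⟨S, subset_rfl, h.countable, .inr rfl⟩
  · have hS : S.Infinite := h
    exact ⟨range fun n => (hS.natEmbedding S n : ι),
      range_subset_iff.2 fun n => (hS.natEmbedding S n).2, countable_range _,
      .inl (infinite_range_of_injective (Subtype.val_injective.comp (hS.natEmbedding S).injective))⟩

/-- Countably many elements of an initial ordinal of size `ℵ₁` have a bound. -/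
theorem exists_gt_countable {O : Type} [LinearOrder O] [WellFoundedLT O] (hO : #O = ℵ₁)
    (hord : Cardinal.ord #O = Ordinal.type ((· < ·) : O → O → Prop)) {ι : Type} [Countable ι]
    (f : ι → O) : ∃ ξ, ∀ i, f i < ξ := by
  have hIic : ∀ a : O, (Iic a).Countable := fun a => by
    rw [← Iio_insert]
    refine Countable.insert _ (le_aleph0_iff_set_countable.1 (lt_aleph_one_iff.1 ?_))
    exact hO ▸ mk_Iio_lt a hord
  by_contra! h
  have : (univ : Set O).Countable := (countable_iUnion fun i => hIic (f i)).mono fun ξ _ => by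
    obtain ⟨i, hi⟩ := h ξ
    exact mem_iUnion.2 ⟨i, hi⟩
  have := hO ▸ mk_univ (α := O) ▸ this.le_aleph0
  exact aleph0_lt_aleph_one.not_ge this

/-- **Many countable partial functions have infinitely many compatible ones.** -/
theorem exists_infinite_compat {ι D V : Type} [Countable V]
    (P : ι → D → Option V) (hP : ∀ i, {x | P i x ≠ none}.Countable) (hι : continuum < #ι) :
    ∃ g : ℕ → ι, Function.Injective g ∧ ∀ m n, Compat (P (g m)) (P (g n)) := by
  classical
  have hc := aleph0_le_continuum
  let cls : ∀ A : Set D, (A → Option V) → Set ι := fun A r => {i | ∀ x : A, P i x = r x}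
  choose W hWsub hWc hWinf using fun (A : Set D) (r : A → Option V) =>
    exists_representatives (cls A r)
  let O : Type := (ℵ₁ : Cardinal.{0}).ord.ToType
  have hO : #O = ℵ₁ := by simp [O]
  have hord : Cardinal.ord #O = Ordinal.type ((· < ·) : O → O → Prop) := by simp [O]
  -- the representatives of classes in a set, and the reflecting sets
  let reps : Set D → Set ι := fun X => ⋃ A : {A : Set D // A ⊆ X ∧ #A ≤ ℵ₀},
    ⋃ r : A.1 → Option V, W A.1 r
  have hreps : ∀ X : Set D, #X ≤ continuum → #(reps X) ≤ continuum := fun X hX => by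
    refine (mk_iUnion_le _).trans ((mul_le_mul' ?_ (ciSup_le' fun A => ?_)).trans
      (mul_eq_self hc).le)
    · refine (mk_bounded_subset_le X ℵ₀).trans
        ((power_le_power_right (max_le hX hc)).trans ?_)
      rw [← two_power_aleph0, ← power_mul, aleph0_mul_aleph0]
    refine (mk_iUnion_le _).trans ((mul_le_mul' ?_ (ciSup_le' fun r => ?_)).trans
      (mul_eq_self hc).le)
    · rw [mk_arrow, lift_id, lift_id]
      refine (power_le_power_right mk_le_aleph0).trans
        ((power_le_power_left aleph0_ne_zero A.2.2).trans ?_)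
      rw [aleph0_power_aleph0]
    · exact (hWc _ _).le_aleph0.trans hc
  let step : Set D → Set D := fun X => ⋃ i : reps X, {x | P i.1 x ≠ none}
  have hstep : ∀ X : Set D, #X ≤ continuum → #(step X) ≤ continuum := fun X hX =>
    (mk_iUnion_le _).trans ((mul_le_mul' (hreps X hX)
      (ciSup_le' fun i => (hP _).le_aleph0.trans hc)).trans (mul_eq_self hc).le)
  let S : O → Set D := (IsWellFounded.wf (r := (· < ·))).fix
    fun ξ rec => ⋃ η : Iio ξ, rec η.1 η.2 ∪ step (rec η.1 η.2)
  have hS : ∀ ξ, S ξ = ⋃ η : Iio ξ, S η.1 ∪ step (S η.1) := fun ξ => WellFounded.fix_eq _ _ ξ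
  have hOc : ∀ T : Set O, #T ≤ continuum := fun T =>
    (mk_set_le T).trans (hO.trans_le aleph_one_le_continuum)
  have hbound : ∀ ξ, #(S ξ) ≤ continuum := by
    intro ξ
    induction ξ using WellFoundedLT.induction with
    | ind ξ ih =>
      rw [hS]
      refine (mk_iUnion_le _).trans ((mul_le_mul' (hOc _)
        (ciSup_le' fun η => ?_)).trans (mul_eq_self hc).le)
      exact (mk_union_le _ _).trans ((add_le_add (ih η.1 η.2) (hstep _ (ih η.1 η.2))).trans
        (add_eq_self hc).le)
  have hsub : ∀ η ξ, η < ξ → S η ∪ step (S η) ⊆ S ξ := fun η ξ h => by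
    rw [hS ξ]
    exact subset_iUnion (fun η : Iio ξ => S η.1 ∪ step (S η.1)) ⟨η, h⟩
  let All : Set D := ⋃ ξ, S ξ
  -- one of the functions is not among the representatives
  obtain ⟨i₀, hi₀⟩ : ∃ i, i ∉ ⋃ ξ, reps (S ξ) := by
    by_contra! hall
    refine hι.not_ge ?_
    rw [← mk_univ, ← eq_univ_of_forall hall]
    exact (mk_iUnion_le _).trans ((mul_le_mul' (hO.trans_le aleph_one_le_continuum)
      (ciSup_le' fun ξ => hreps _ (hbound ξ))).trans (mul_eq_self hc).le)
  -- every countable piece of its restriction is represented infinitely often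
  let r₀ : Set D := {x | x ∈ All ∧ P i₀ x ≠ none}
  have key : ∀ B : Set D, B.Countable → B ⊆ All →
      {i | {x | P i x ≠ none} ⊆ All ∧ ∀ x ∈ r₀ ∪ B, P i x = P i₀ x}.Infinite := fun B hB hBA => by
    have hA : (r₀ ∪ B).Countable := ((hP i₀).mono fun x hx => hx.2).union hB
    have : Countable ↥(r₀ ∪ B) := hA.to_subtype
    choose ξ hξ using fun x : ↥(r₀ ∪ B) => mem_iUnion.1
      ((union_subset (fun x hx => hx.1) hBA : r₀ ∪ B ⊆ All) x.2)
    obtain ⟨ζ, hζ⟩ := exists_gt_countable hO hord ξ
    have hAS : r₀ ∪ B ⊆ S ζ := fun x hx => hsub _ _ (hζ ⟨x, hx⟩) (.inl (hξ ⟨x, hx⟩))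
    let r : ↥(r₀ ∪ B) → Option V := fun x => P i₀ x
    have hW : W _ r ⊆ reps (S ζ) := fun i hi =>
      mem_iUnion.2 ⟨⟨_, hAS, hA.le_aleph0⟩, mem_iUnion.2 ⟨r, hi⟩⟩
    refine ((hWinf _ r).resolve_right fun he => hi₀ (mem_iUnion.2 ⟨ζ, hW ?_⟩)).mono fun i hi => ?_
    · rw [he]
      exact fun x => rfl
    · obtain ⟨ζ', hζ'⟩ := exists_gt_countable hO hord fun _ : Unit => ζ
      refine ⟨fun x hx => mem_iUnion.2 ⟨ζ', hsub _ _ (hζ' ())
        (.inr (mem_iUnion.2 ⟨⟨i, hW hi⟩, hx⟩))⟩, fun x hx => hWsub _ _ hi ⟨x, hx⟩⟩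
  -- choose them one after another
  have hnext : ∀ l : List ι, (∀ j ∈ l, {x | P j x ≠ none} ⊆ All) → ∃ i, i ∉ l ∧
      {x | P i x ≠ none} ⊆ All ∧
        ∀ x ∈ r₀ ∪ {x | ∃ j ∈ l, P j x ≠ none}, P i x = P i₀ x := fun l hl => by
    have hB : {x | ∃ j ∈ l, P j x ≠ none}.Countable := by
      rw [show {x | ∃ j ∈ l, P j x ≠ none} = ⋃ j ∈ {j | j ∈ l}, {x | P j x ≠ none} by ext; simp]
      exact (List.finite_toSet l).countable.biUnion fun j _ => hP j
    obtain ⟨i, hi, hil⟩ := ((key _ hB fun x ⟨j, hj, hx⟩ => hl j hj hx).sdiff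
      (List.finite_toSet l)).nonempty
    exact ⟨i, hil, hi.1, hi.2⟩
  choose next hnew hnextAll hnextEq using hnext
  let seq : ℕ → {l : List ι // ∀ j ∈ l, {x | P j x ≠ none} ⊆ All} := fun n =>
    Nat.rec ⟨[], by simp⟩ (fun _ l => ⟨next l.1 l.2 :: l.1, fun j hj => by
      rcases List.mem_cons.1 hj with rfl | hj
      exacts [hnextAll _ _, l.2 j hj]⟩) n
  let g : ℕ → ι := fun n => next (seq n).1 (seq n).2
  have hmem : ∀ m n, m < n → g m ∈ (seq n).1 := fun m n h => by
    induction h with
    | refl => exact List.mem_cons_self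
    | step _ ih => exact List.mem_cons_of_mem _ ih
  have hlt : ∀ m n, m < n → Compat (P (g m)) (P (g n)) := fun m n h x a b ha hb => by
    have hx : x ∈ {x | ∃ j ∈ (seq n).1, P j x ≠ none} := ⟨g m, hmem m n h, by simp [ha]⟩
    have h1 := hnextEq (seq n).1 (seq n).2 x (.inr hx)
    have hxr : x ∈ r₀ := ⟨(seq n).2 _ (hmem m n h) (show P (g m) x ≠ none by simp [ha]), by
      simp only [g] at hb
      rw [← h1, hb]
      simp⟩
    have h2 := hnextEq (seq m).1 (seq m).2 x (.inl hxr)
    exact Option.some_injective _ ((ha.symm.trans h2).trans (h1.symm.trans hb))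
  refine ⟨g, fun m n he => ?_, fun m n => ?_⟩
  · rcases lt_trichotomy m n with h | h | h
    · exact absurd (he ▸ hmem m n h) (hnew _ _)
    · exact h
    · exact absurd (he.symm ▸ hmem n m h) (hnew _ _)
  · rcases lt_trichotomy m n with h | rfl | h
    exacts [hlt m n h, compat_self _, (hlt n m h).symm]

/-- Index sets which are large enough for tuples of the given length. -/
def Large : ℕ → Type
  | 0 => Set (ℕ → ℕ)
  | d + 1 => Set (ℕ → Large d ⊕ (ℕ → ℕ))

instance nonempty_large : ∀ d, Nonempty (Large d)
  | 0 => ⟨(∅ : Set (ℕ → ℕ))⟩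
  | d + 1 => ⟨(∅ : Set (ℕ → Large d ⊕ (ℕ → ℕ)))⟩

/-- **Boxes of compatible partial functions.** -/
theorem exists_compatible_box {D V : Type} [Countable V] :
    ∀ (d : ℕ) (g : (Fin d → Large d) → D → Option V), (∀ v, {x | g v x ≠ none}.Countable) →
      ∃ K : Fin d → ℕ → Large d, (∀ i, Function.Injective (K i)) ∧
        ∀ a b : Fin d → ℕ, Compat (g fun i => K i (a i)) (g fun i => K i (b i)) := by
  intro d
  induction d with
  | zero =>
    exact fun g _ => ⟨fun i => i.elim0, fun i => i.elim0, fun a b => by
      rw [Subsingleton.elim a b]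
      exact compat_self _⟩
  | succ d ih =>
    intro g hg
    classical
    let emb : Large d → Large (d + 1) := fun a =>
      ({fun _ => .inl a} : Set (ℕ → Large d ⊕ (ℕ → ℕ)))
    have hemb : Function.Injective emb := fun a b h =>
      Sum.inl_injective (congrFun (Set.singleton_injective h) 0)
    choose K hKi hKc using fun β : Large (d + 1) =>
      ih (fun v => g (Fin.snoc (fun i => emb (v i)) β)) fun v => hg _
    -- many last coordinates share their box
    let Γ : Type := ℕ → Large d ⊕ (ℕ → ℕ)
    have hΓc : continuum ≤ #Γ := by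
      refine le_trans (le_of_eq ?_) (mk_le_of_injective (f := fun (z : ℕ → ℕ) (_ : ℕ) =>
        (.inr z : Large d ⊕ (ℕ → ℕ))) fun a b h => Sum.inr_injective (congrFun h 0))
      simp [aleph0_power_aleph0]
    have hK : #(Fin d → ℕ → Large d) ≤ #Γ :=
      mk_le_of_injective (f := fun (k : Fin d → ℕ → Large d) (n : ℕ) =>
        if h : n.unpair.1 < d then (.inl (k ⟨n.unpair.1, h⟩ n.unpair.2) : Large d ⊕ (ℕ → ℕ))
        else .inr 0) fun k k' h => funext fun i => funext fun m => by
          simpa using congrFun h (Nat.pair i m)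
    have hL : #Γ < #(Large (d + 1)) := by
      rw [show #(Large (d + 1)) = 2 ^ #Γ from mk_set]
      exact cantor _
    obtain ⟨K₀, hK₀⟩ : ∃ K₀, continuum < #(K ⁻¹' {K₀}) := by
      by_contra! hall
      refine hL.not_ge ?_
      calc #(Large (d + 1)) = #(⋃ K₀, K ⁻¹' {K₀}) := by
            rw [show (⋃ K₀, K ⁻¹' {K₀}) = Set.univ by ext; simp, mk_univ]
        _ ≤ #Γ * #Γ := (mk_iUnion_le _).trans
            (mul_le_mul' hK (ciSup_le' fun k => (hall k).trans hΓc))
        _ = #Γ := mul_eq_self (aleph0_le_continuum.trans hΓc)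
    let F : Set (Large (d + 1)) := K ⁻¹' {K₀}
    have hF : ∀ β : F, K β.1 = K₀ := fun β => β.2
    let tuple : F → (Fin d → ℕ) → Fin (d + 1) → Large (d + 1) := fun β a =>
      Fin.snoc (fun i => emb (K₀ i (a i))) β.1
    have hc₀ : ∀ β : F, ∀ a b, Compat (g (tuple β a)) (g (tuple β b)) := fun β a b => by
      have h := hKc β.1 a b
      rwa [hF β] at h
    -- the union over a box is a countable partial function
    let P : F → D → Option V := fun β x =>
      if h : ∃ a, g (tuple β a) x ≠ none then g (tuple β h.choose) x else none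
    have hPa : ∀ β a x v, g (tuple β a) x = some v → P β x = some v := fun β a x v hv => by
      have hex : ∃ a, g (tuple β a) x ≠ none := ⟨a, by simp [hv]⟩
      simp only [P, dif_pos hex]
      obtain ⟨w, hw⟩ := Option.ne_none_iff_exists'.1 hex.choose_spec
      rw [hw, hc₀ β a hex.choose x v w hv hw]
    obtain ⟨e, he, hec⟩ := exists_infinite_compat P (fun β =>
      (countable_iUnion fun a => hg (tuple β a)).mono fun x hx => by
        simp only [P, mem_ofPred_eq, ne_eq, dite_eq_right_iff, not_forall] at hx
        obtain ⟨h, -⟩ := hx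
        exact mem_iUnion.2 h) hK₀
    refine ⟨Fin.snoc (fun i n => emb (K₀ i n)) (fun n => (e n).1), fun i => ?_, fun a b => ?_⟩
    · induction i using Fin.lastCases with
      | last =>
        simp only [Fin.snoc_last]
        exact Subtype.val_injective.comp he
      | cast i =>
        simp only [Fin.snoc_castSucc]
        refine hemb.comp ?_
        rw [← hF (e 0)]
        exact hKi _ i
    · have hval : ∀ c : Fin (d + 1) → ℕ,
          (fun i => Fin.snoc (α := fun _ => ℕ → Large (d + 1)) (fun i n => emb (K₀ i n))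
            (fun n => (e n).1) i (c i)) =
            tuple (e (c (Fin.last d))) fun i => c i.castSucc := fun c => funext fun i => by
        induction i using Fin.lastCases with
        | last => simp [tuple]
        | cast i => simp [tuple]
      intro x v w hv hw
      rw [hval] at hv hw
      exact hec _ _ x v w (hPa _ _ x v hv) (hPa _ _ x w hw)

end FA.HalpernLauchli
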