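import Fermat.Agent.HalpernLauchli.Compatible
import Fermat.Agent.Determinacy.Games
import Mathlib.Order.Zorn

/-!
# Harrington's argument

Points choose a branch for each tree and each of many indices; a box fixes finitely many of the
branches up to some level.  A maximal family of sequences of sets which meet every box cofinally
decides, for every tuple of indices, a colour below some box, and compatible boxes for tuples from
infinite sets give a dense monochromatic product of levels.
-/

set_option autoImplicit false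

universe u w

namespace FA.HalpernLauchli

open Set Determinacy

variable {α : Type u} {d : ℕ}

/-- Every node of a tree is on a branch. -/
theorem exists_branch (T : GameTree α) {p : List α} (hp : p ∈ T) :
    ∃ b ∈ T.body, pre b p.length = p := by
  have := T.nonempty
  obtain ⟨a₀⟩ := this
  let s : ℕ → List α := fun j => Nat.rec p (fun _ q => q ++ [someMove T q]) j
  have hs : ∀ j, s j ∈ T := fun j => by
    induction j with
    | zero => exact hp
    | succ j ih => exact someMove_mem T ih
  have hlen : ∀ j, (s j).length = p.length + j := fun j => by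
    induction j with
    | zero => rfl
    | succ j ih => simp only [s, List.length_append, List.length_singleton] at ih ⊢; omega
  have hpre : ∀ j k, j ≤ k → s j <+: s k := fun j k h => by
    induction h with
    | refl => exact List.prefix_refl _
    | step _ ih => exact ih.trans (List.prefix_append _ _)
  let b : ℕ → α := fun n => (s (n + 1)).getD n a₀
  have hb : ∀ n j, n ≤ (s j).length → pre b n = (s j).take n := fun n j hn => by
    refine List.ext_getElem (by simp [hn]) fun i h1 h2 => ?_
    have hi : i < n := by simpa using h1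
    have hi1 : i < (s (i + 1)).length := by
      have := hlen (i + 1)
      omega
    simp only [pre, List.getElem_map, List.getElem_range, List.getElem_take, b]
    rw [List.getD_eq_getElem _ _ hi1]
    rcases le_total (i + 1) j with h | h
    · exact (hpre _ _ h).getElem hi1
    · exact ((hpre _ _ h).getElem (lt_of_lt_of_le hi hn)).symm
  refine ⟨b, fun n => ?_, ?_⟩
  · rw [hb n n (by have := hlen n; omega)]
    exact T.take_mem (hs n) n
  · rw [hb p.length 0 (by simp [s])]
    exact List.take_length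

variable (T : Fin d → GameTree α)

/-- A point: branches for all the indices. -/
abbrev Pt : Type u :=
  ∀ i : Fin d, Large d → (T i).body

/-- A box: finitely many indices, a level and a point. -/
abbrev Box : Type u :=
  Finset (Fin d × Large d) × ℕ × Pt T

variable {T}

/-- The points of a box. -/
def Box.points (p : Box T) : Set (Pt T) :=
  {y | ∀ q ∈ p.1, pre (y q.1 q.2).1 p.2.1 = pre (p.2.2 q.1 q.2).1 p.2.1}

theorem Box.mem_points_self (p : Box T) : p.2.2 ∈ p.points :=
  fun _ _ => rfl

theorem Box.points_subset {p : Box T} {y : Pt T} (hy : y ∈ p.points)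
    {F : Finset (Fin d × Large d)} {n : ℕ} (hF : p.1 ⊆ F) (hn : p.2.1 ≤ n) :
    Box.points (F, n, y) ⊆ p.points := fun z hz q hq => by
  have h := congrArg (List.take p.2.1) (hz q (hF hq))
  rw [take_pre _ hn, take_pre _ hn] at h
  exact h.trans (hy q hq)

/-- Sequences of sets which meet every box cofinally, finitely many at a time. -/
def IsCofinal (𝔽 : Set (ℕ → Set (Pt T))) : Prop :=
  ∀ 𝒢 : Set (ℕ → Set (Pt T)), 𝒢 ⊆ 𝔽 → 𝒢.Finite → ∀ (p : Box T) (m : ℕ),
    ∃ k, m ≤ k ∧ ∃ y ∈ p.points, ∀ N ∈ 𝒢, y ∈ N k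

theorem exists_maximal_cofinal : ∃ 𝔽, Maximal (IsCofinal (T := T)) 𝔽 := by
  refine zorn_subset {𝔽 | IsCofinal (T := T) 𝔽} fun c hc hchain => ?_
  rcases c.eq_empty_or_nonempty with rfl | hne
  · exact ⟨∅, fun 𝒢 h𝒢 _ p m => ⟨m, le_rfl, p.2.2, p.mem_points_self,
      fun N hN => (h𝒢 hN).elim⟩, fun _ h => h.elim⟩
  refine ⟨⋃₀ c, fun 𝒢 h𝒢 hfin => ?_, fun F hF => subset_sUnion_of_mem hF⟩
  obtain ⟨F, hF, hsub⟩ :=
    DirectedOn.exists_mem_subset_of_finite_of_subset_sUnion hne hchain.directedOn hfin h𝒢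
  exact hc hF 𝒢 hsub hfin

variable {C : Type w} (f : (Fin d → List α) → C)

/-- The sequence of sets where a colour is seen or a box is left. -/
def colourName (v : Fin d → Large d) (c : C) (p : Box T) (k : ℕ) : Set (Pt T) :=
  {y | f (fun i => pre (y i (v i)).1 k) = c ∨ y ∉ p.points}

/-- Some box and colour are decided. -/
theorem exists_decided [Finite C] {𝔽 : Set (ℕ → Set (Pt T))}
    (h : Maximal (IsCofinal (T := T)) 𝔽) (x : Pt T) (v : Fin d → Large d) :
    ∃ (p : Box T) (c : C), colourName f v c p ∈ 𝔽 := by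
  classical
  by_contra! hno
  have hstep : ∀ (p : Box T) (c : C), ∃ q : Box T, q.points ⊆ p.points ∧
      ∃ 𝒢, 𝒢 ⊆ 𝔽 ∧ 𝒢.Finite ∧ ∃ m, ∀ k, m ≤ k → ∀ y ∈ q.points, (∀ N ∈ 𝒢, y ∈ N k) →
        f (fun i => pre (y i (v i)).1 k) ≠ c := fun p c => by
    have hnot : ¬IsCofinal (insert (colourName f v c p) 𝔽) := fun hc =>
      hno p c (h.2 hc (subset_insert _ _) (mem_insert _ _))
    simp only [IsCofinal, not_forall, not_exists, not_and, exists_prop] at hnot
    obtain ⟨𝒢, h𝒢, hfin, q, m, hq⟩ := hnot
    have hsub : 𝒢 \ {colourName f v c p} ⊆ 𝔽 := fun N hN =>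
      (h𝒢 hN.1).resolve_left fun he => hN.2 he
    have hkill : ∀ k, m ≤ k → ∀ y ∈ q.points, (∀ N ∈ 𝒢 \ {colourName f v c p}, y ∈ N k) →
        y ∉ colourName f v c p k := fun k hk y hy hN hmem => by
      obtain ⟨N, hN', hyN⟩ := hq k hk y hy
      exact hyN (if he : N = colourName f v c p then he ▸ hmem else hN N ⟨hN', he⟩)
    refine ⟨q, fun y hy => by_contra fun hyp => ?_, _, hsub, hfin.sdiff, m,
      fun k hk y hy hN he => hkill k hk y hy hN (.inl he)⟩
    obtain ⟨k, hk, z, hz, hzN⟩ := h.1 _ hsub hfin.sdiff (q.1 ∪ p.1, max q.2.1 p.2.1, y) m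
    refine hkill k hk z (Box.points_subset hy Finset.subset_union_left (le_max_left _ _) hz) hzN
      (.inr fun hzp => hyp fun a ha => ?_)
    have h2 := congrArg (List.take p.2.1) (hz a (Finset.mem_union_right _ ha))
    rw [take_pre _ (le_max_right _ _), take_pre _ (le_max_right _ _)] at h2
    exact h2.symm.trans (hzp a ha)
  have hall : ∀ l : List C, ∃ q : Box T, ∃ 𝒢, 𝒢 ⊆ 𝔽 ∧ 𝒢.Finite ∧ ∃ m, ∀ k, m ≤ k →
      ∀ y ∈ q.points, (∀ N ∈ 𝒢, y ∈ N k) → f (fun i => pre (y i (v i)).1 k) ∉ l := by
    intro l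
    induction l with
    | nil => exact ⟨(∅, 0, x), ∅, empty_subset _, finite_empty, 0, fun k _ y _ _ => by simp⟩
    | cons c l ih =>
      obtain ⟨p, 𝒢, h1, h2, m, h3⟩ := ih
      obtain ⟨q, hqp, 𝒢', h1', h2', m', h3'⟩ := hstep p c
      refine ⟨q, 𝒢 ∪ 𝒢', union_subset h1 h1', h2.union h2', max m m', fun k hk y hy hN hmem => ?_⟩
      rcases List.mem_cons.1 hmem with he | he
      · exact h3' k ((le_max_right _ _).trans hk) y hy (fun N hN' => hN N (.inr hN')) he
      · exact h3 k ((le_max_left _ _).trans hk) y (hqp hy) (fun N hN' => hN N (.inl hN')) he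
  have : Fintype C := Fintype.ofFinite C
  obtain ⟨q, 𝒢, h1, h2, m, h3⟩ := hall Finset.univ.toList
  obtain ⟨k, hk, y, hy, hN⟩ := h.1 𝒢 h1 h2 q m
  exact h3 k hk y hy hN (by simp)

/-- **The dense set form of the theorem of Halpern and Läuchli.** -/
theorem exists_dense_set [Finite C] (hT : ∀ i n, {s | s ∈ T i ∧ s.length = n}.Finite) :
    ∃ (c : C) (n : ℕ) (t : Fin d → List α), (∀ i, t i ∈ T i ∧ (t i).length = n) ∧
      ∀ m, n ≤ m → ∃ k, m ≤ k ∧ ∃ e : Fin d → List α → List α,
        (∀ i s, s ∈ T i → s.length = m → t i <+: s →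
          e i s ∈ T i ∧ (e i s).length = k ∧ s <+: e i s) ∧
        ∀ s : Fin d → List α, (∀ i, s i ∈ T i ∧ (s i).length = m ∧ t i <+: s i) →
          f (fun i => e i (s i)) = c := by
  classical
  have x₀ : Pt T := fun i _ => ⟨(exists_branch (T i) (T i).nil_mem).choose,
    (exists_branch (T i) (T i).nil_mem).choose_spec.1⟩
  obtain ⟨𝔽, h𝔽⟩ := exists_maximal_cofinal (T := T)
  choose p c hpc using exists_decided f h𝔽 x₀
  -- countably many nodes
  let Node : Set (List α) := ⋃ i, ⋃ n, {s | s ∈ T i ∧ s.length = n}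
  have : Countable Node := (countable_iUnion fun i => countable_iUnion fun n =>
    (hT i n).countable).to_subtype
  obtain ⟨code, hcode⟩ := exists_injective_nat Node
  obtain ⟨code', hcode'⟩ := exists_injective_nat (ℕ × C)
  have hnode : ∀ (i : Fin d) (b : (T i).body) (k : ℕ), pre b.1 k ∈ Node := fun i b k =>
    mem_iUnion.2 ⟨i, mem_iUnion.2 ⟨k, b.2 k, length_pre _ _⟩⟩
  let g : (Fin d → Large d) → (Fin d × Large d) ⊕ Option (Fin d) → Option ℕ := fun v z =>
    z.elim
      (fun q => if q ∈ (p v).1 ∨ q.2 = v q.1 then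
        some (code ⟨_, hnode q.1 ((p v).2.2 q.1 q.2) (p v).2.1⟩) else none)
      (fun o => o.elim (some (code' ((p v).2.1, c v)))
        fun i => some (code ⟨_, hnode i ((p v).2.2 i (v i)) (p v).2.1⟩))
  obtain ⟨K, hK, hKc⟩ := exists_compatible_box d g fun v => by
    refine ((Set.finite_range fun o : Option (Fin d) => (Sum.inr o : _ ⊕ Option (Fin d))).union
      (((p v).1 ∪ Finset.univ.image fun i => (i, v i)).finite_toSet.image Sum.inl)).countable.mono
      fun z hz => ?_
    rcases z with q | o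
    · refine .inr ⟨q, ?_, rfl⟩
      by_contra hq
      simp only [Finset.coe_union, Finset.coe_image, Finset.coe_univ, image_univ, mem_union,
        Finset.mem_coe, mem_range, not_or, not_exists] at hq
      exact hz (if_neg (not_or.2 ⟨hq.1, fun he => hq.2 q.1 (Prod.ext rfl he.symm)⟩))
    · exact .inl ⟨o, rfl⟩
  -- the common level, colour and nodes
  let v₀ : Fin d → Large d := fun i => K i 0
  have hsame : ∀ a : Fin d → ℕ, (p fun i => K i (a i)).2.1 = (p v₀).2.1 ∧
      (c fun i => K i (a i)) = c v₀ ∧ ∀ i,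
        pre ((p fun i => K i (a i)).2.2 i (K i (a i))).1 (p v₀).2.1 =
          pre ((p v₀).2.2 i (v₀ i)).1 (p v₀).2.1 := fun a => by
    have h := hKc a (fun _ => 0) (.inr none) _ _ rfl rfl
    obtain ⟨hn, hc⟩ := Prod.mk.inj (hcode' h)
    refine ⟨hn, hc, fun i => ?_⟩
    have h' := congrArg Subtype.val
      (hcode (hKc a (fun _ => 0) (.inr (some i)) _ _ rfl rfl))
    simpa only [hn] using h'
  refine ⟨c v₀, (p v₀).2.1, fun i => pre ((p v₀).2.2 i (v₀ i)).1 (p v₀).2.1,
    fun i => ⟨((p v₀).2.2 i (v₀ i)).2 _, length_pre _ _⟩, fun m hm => ?_⟩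
  set n := (p v₀).2.1
  set t : Fin d → List α := fun i => pre ((p v₀).2.2 i (v₀ i)).1 n
  let L : Fin d → Finset (List α) := fun i => (hT i m).toFinset.filter (t i <+: ·)
  have hL : ∀ i s, s ∈ L i ↔ s ∈ T i ∧ s.length = m ∧ t i <+: s := fun i s => by
    simp [L, and_assoc]
  -- an index for each node
  let idx : Fin d → List α → ℕ := fun i s => (L i).toList.idxOf s
  let B : Finset (Fin d → List α) := Fintype.piFinset L
  let tup : (Fin d → List α) → Fin d → Large d := fun s i => K i (idx i (s i))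
  let x : Pt T := fun i β =>
    if h : ∃ s ∈ L i, K i (idx i s) = β then
      ⟨(exists_branch (T i) ((hL i _).1 h.choose_spec.1).1).choose,
        (exists_branch (T i) ((hL i _).1 h.choose_spec.1).1).choose_spec.1⟩
    else if h : ∃ s ∈ B, (i, β) ∈ (p (tup s)).1 then (p (tup h.choose)).2.2 i β
    else x₀ i β
  have hxs : ∀ i, ∀ s ∈ L i, pre (x i (K i (idx i s))).1 m = s := fun i s hs => by
    have hex : ∃ s' ∈ L i, K i (idx i s') = K i (idx i s) := ⟨s, hs, rfl⟩
    have he : hex.choose = s := by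
      have h := hK i hex.choose_spec.2
      exact (List.idxOf_inj (by simpa using hex.choose_spec.1)).1 h
    simp only [x, dif_pos hex]
    have hb := (exists_branch (T i) ((hL i _).1 hex.choose_spec.1).1).choose_spec.2
    exact ((congrArg (pre _) ((hL i _).1 hex.choose_spec.1).2.1).symm.trans hb).trans he
  have hxp : ∀ s ∈ B, ∀ q ∈ (p (tup s)).1,
      pre (x q.1 q.2).1 n = pre ((p (tup s)).2.2 q.1 q.2).1 n := by
    rintro s hs ⟨i, β⟩ hq
    by_cases h1 : ∃ s' ∈ L i, K i (idx i s') = β
    · obtain ⟨s', hs', rfl⟩ := h1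
      rw [← take_pre _ hm, hxs i s' hs']
      let a : Fin d → ℕ := Function.update (fun j => idx j (s j)) i (idx i s')
      have hai : K i (a i) = K i (idx i s') := by simp [a]
      have h := hKc a (fun j => idx j (s j)) (.inl (i, K i (idx i s'))) _ _
        (if_pos (Or.inr hai.symm)) (if_pos (Or.inl hq))
      have h' := congrArg Subtype.val (hcode h)
      simp only [(hsame a).1, (hsame fun j => idx j (s j)).1] at h'
      rw [← h', ← hai, (hsame a).2.2 i]
      have h3 := List.prefix_iff_eq_take.1 ((hL i s').1 hs').2.2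
      rw [length_pre] at h3
      exact h3.symm
    · have h2 : ∃ s'' ∈ B, (i, β) ∈ (p (tup s'')).1 := ⟨s, hs, hq⟩
      simp only [x, dif_neg h1, dif_pos h2]
      have h := hKc (fun j => idx j (h2.choose j)) (fun j => idx j (s j)) (.inl (i, β)) _ _
        (if_pos (Or.inl h2.choose_spec.2)) (if_pos (Or.inl hq))
      have h' := congrArg Subtype.val (hcode h)
      simpa only [(hsame fun j => idx j (h2.choose j)).1, (hsame fun j => idx j (s j)).1] using h'
  let F : Finset (Fin d × Large d) :=
    (B.biUnion fun s => (p (tup s)).1) ∪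
      Finset.univ.biUnion fun i => (L i).image fun s => (i, K i (idx i s))
  obtain ⟨k, hk, y, hy, hN⟩ := h𝔽.1 ((fun s => colourName f (tup s) (c (tup s)) (p (tup s))) '' B)
    (by rintro _ ⟨s, -, rfl⟩; exact hpc _) (B.finite_toSet.image _) (F, m, x) m
  refine ⟨k, hk, fun i s => pre (y i (K i (idx i s))).1 k, fun i s h1 h2 h3 => ?_, fun s hs => ?_⟩
  · refine ⟨(y i _).2 k, length_pre _ _, ?_⟩
    have hsL : s ∈ L i := (hL i s).2 ⟨h1, h2, h3⟩
    have hyx := hy (i, K i (idx i s)) (Finset.mem_union_right _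
      (Finset.mem_biUnion.2 ⟨i, Finset.mem_univ _, Finset.mem_image_of_mem _ hsL⟩))
    have he : pre (y i (K i (idx i s))).1 m = s := hyx.trans (hxs i s hsL)
    have h := pre_prefix (y i (K i (idx i s))).1 hk
    rwa [he] at h
  · have hsB : s ∈ B := Fintype.mem_piFinset.2 fun i => (hL i _).2 (hs i)
    have hpy : y ∈ (p (tup s)).points := fun q hq => by
      have hyx := congrArg (List.take n)
        (hy q (Finset.mem_union_left _ (Finset.mem_biUnion.2 ⟨s, hsB, hq⟩)))
      rw [take_pre _ hm, take_pre _ hm, hxp s hsB q hq] at hyx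
      rw [show (p (tup s)).2.1 = n from (hsame fun j => idx j (s j)).1]
      exact hyx
    exact ((hN _ ⟨s, hsB, rfl⟩).resolve_right (not_not.2 hpy)).trans
      (hsame fun j => idx j (s j)).2.1

end FA.HalpernLauchli
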