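import Fermat.Agent.HalpernLauchli.Generic

/-!
# Strong subtrees

A dense monochromatic product of levels above a tuple of nodes gives, level after level, strong
subtrees with one set of levels whose level product is monochromatic.
-/

set_option autoImplicit false

universe u w

namespace FA.HalpernLauchli

open Set Determinacy

variable {α : Type u}

/-- `S` is a strong subtree of `T` with the levels `ℓ`: it has one node at the first level, its
nodes are only at these levels, each lies above one at the level before, and above each immediate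
successor in `T` of one of its nodes there is exactly one of its nodes at the next level. -/
structure IsStrongSubtree (T : GameTree α) (S : Set (List α)) (ℓ : ℕ → ℕ) : Prop where
  mem_tree : ∀ s ∈ S, s ∈ T
  length_mem : ∀ s ∈ S, ∃ j, s.length = ℓ j
  unique_root : ∃! s, s ∈ S ∧ s.length = ℓ 0
  take_mem : ∀ j, ∀ s ∈ S, s.length = ℓ (j + 1) → s.take (ℓ j) ∈ S
  exists_unique_successor : ∀ j, ∀ s ∈ S, s.length = ℓ j → ∀ a, s ++ [a] ∈ T →
    ∃! v, v ∈ S ∧ v.length = ℓ (j + 1) ∧ s ++ [a] <+: v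

variable {d : ℕ} {T : Fin d → GameTree α} {C : Type w} [Finite C]

/-- **Halpern and Läuchli.** For every finite colouring of the tuples of nodes of one level in
finitely branching trees there are strong subtrees with one infinite set of levels whose level
products have one colour. -/
theorem exists_strong_subtrees (f : (Fin d → List α) → C)
    (hT : ∀ i n, {s | s ∈ T i ∧ s.length = n}.Finite) :
    ∃ (c : C) (ℓ : ℕ → ℕ) (S : Fin d → Set (List α)), StrictMono ℓ ∧
      (∀ i, IsStrongSubtree (T i) (S i) ℓ) ∧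
      ∀ j, ∀ s : Fin d → List α, (∀ i, s i ∈ S i ∧ (s i).length = ℓ j) → f s = c := by
  classical
  obtain ⟨c, n, t, ht, hdense⟩ := exists_dense_set f hT
  choose k hk e he hcol using hdense
  -- the levels; `m j` is where the new nodes are chosen
  let ℓ : ℕ → ℕ := fun j => Nat.rec (k n le_rfl) (fun _ l => k (max n (l + 1)) (le_max_left _ _)) j
  have hℓ : ∀ j, ℓ j + 1 ≤ max n (ℓ j + 1) ∧ max n (ℓ j + 1) ≤ ℓ (j + 1) := fun j =>
    ⟨le_max_right _ _, hk _ _⟩
  have hn : ∀ j, n ≤ ℓ j := fun j => by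
    cases j with
    | zero => exact hk n le_rfl
    | succ j => exact (le_max_left n (ℓ j + 1)).trans (hk _ _)
  have hmax : ∀ j, max n (ℓ j + 1) = ℓ j + 1 := fun j => max_eq_right ((hn j).trans (Nat.le_succ _))
  -- the nodes of each level
  let L : ℕ → Fin d → Set (List α) := fun j => Nat.rec (fun i => {e n le_rfl i (t i)})
    (fun j L i => {v | ∃ s ∈ L i, ∃ a, s ++ [a] ∈ T i ∧
      v = e (max n (ℓ j + 1)) (le_max_left _ _) i (s ++ [a])}) j
  have hL0 : ∀ i v, v ∈ L 0 i ↔ v = e n le_rfl i (t i) := fun i v => Iff.rfl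
  have hLsucc : ∀ j i v, v ∈ L (j + 1) i ↔ ∃ s ∈ L j i, ∃ a, s ++ [a] ∈ T i ∧
      v = e (max n (ℓ j + 1)) (le_max_left _ _) i (s ++ [a]) := fun j i v => Iff.rfl
  have hLe : ∀ j i, ∀ s ∈ L j i, s ∈ T i ∧ s.length = ℓ j ∧ t i <+: s := by
    intro j
    induction j with
    | zero =>
      intro i s hs
      rw [hL0] at hs
      subst hs
      exact he n le_rfl i _ (ht i).1 (ht i).2 (List.prefix_refl _)
    | succ j ih =>
      intro i v hv
      obtain ⟨s, hs, a, ha, rfl⟩ := (hLsucc j i v).1 hv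
      obtain ⟨-, hsl, hts⟩ := ih i s hs
      have hts' : t i <+: s ++ [a] := hts.trans (List.prefix_append _ _)
      obtain ⟨h1, h2, h3⟩ :=
        he (max n (ℓ j + 1)) (le_max_left _ _) i (s ++ [a]) ha (by simp [hsl, hmax]) hts'
      exact ⟨h1, h2, hts'.trans h3⟩
  have hstep : ∀ j i, ∀ s ∈ L j i, ∀ a, s ++ [a] ∈ T i →
      s ++ [a] <+: e (max n (ℓ j + 1)) (le_max_left _ _) i (s ++ [a]) := fun j i s hs a ha => by
    obtain ⟨-, hsl, hts⟩ := hLe j i s hs
    exact (he _ (le_max_left _ _) i (s ++ [a]) ha (by simp [hsl, hmax])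
      (hts.trans (List.prefix_append _ _))).2.2
  have hmono : StrictMono ℓ := strictMono_nat_of_lt_succ fun j => (hℓ j).1.trans (hℓ j).2
  have hlevel : ∀ {j i s}, s ∈ ⋃ j, L j i → s.length = ℓ j → s ∈ L j i := fun {j i s} hs hl => by
    obtain ⟨j', hj'⟩ := mem_iUnion.1 hs
    rwa [hmono.injective (hl.symm.trans (hLe j' i s hj').2.1)]
  refine ⟨c, ℓ, fun i => ⋃ j, L j i, hmono, fun i => ?_, fun j s hs => ?_⟩
  · refine ⟨fun s hs => ?_, fun s hs => ?_, ?_, fun j s hs hl => ?_, fun j s hs hl a ha => ?_⟩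
    · obtain ⟨j, hj⟩ := mem_iUnion.1 hs
      exact (hLe j i s hj).1
    · obtain ⟨j, hj⟩ := mem_iUnion.1 hs
      exact ⟨j, (hLe j i s hj).2.1⟩
    · exact ⟨e n le_rfl i (t i), ⟨mem_iUnion.2 ⟨0, rfl⟩, (hLe 0 i _ rfl).2.1⟩,
        fun s hs => (hL0 i s).1 (hlevel (j := 0) hs.1 hs.2)⟩
    · obtain ⟨q, hq, a, ha, rfl⟩ := (hLsucc j i s).1 (hlevel (j := j + 1) hs hl)
      have h := List.prefix_iff_eq_take.1 ((List.prefix_append q [a]).trans (hstep j i q hq a ha))
      rw [(hLe j i q hq).2.1] at h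
      exact mem_iUnion.2 ⟨j, h ▸ hq⟩
    · have hsj := hlevel hs hl
      let v := e (max n (ℓ j + 1)) (le_max_left _ _) i (s ++ [a])
      have hv : v ∈ L (j + 1) i := (hLsucc j i v).2 ⟨s, hsj, a, ha, rfl⟩
      refine ⟨v, ⟨mem_iUnion.2 ⟨j + 1, hv⟩, (hLe (j + 1) i v hv).2.1, hstep j i s hsj a ha⟩,
        fun u ⟨hu, hul, hsu⟩ => ?_⟩
      obtain ⟨q, hq, b, hb, rfl⟩ := (hLsucc j i u).1 (hlevel (j := j + 1) hu hul)
      have h1 := hstep j i q hq b hb
      have hlen : (q ++ [b]).length = (s ++ [a]).length := by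
        simp [(hLe j i q hq).2.1, (hLe j i s hsj).2.1]
      have : q ++ [b] = s ++ [a] :=
        (List.prefix_of_prefix_length_le h1 hsu hlen.le).eq_of_length hlen
      rw [this]
  · have hsj : ∀ i, s i ∈ L j i := fun i => hlevel (hs i).1 (hs i).2
    cases j with
    | zero =>
      have := hcol n le_rfl t fun i => ⟨(ht i).1, (ht i).2, List.prefix_refl _⟩
      rwa [show s = fun i => e n le_rfl i (t i) from funext fun i => (hL0 i _).1 (hsj i)]
    | succ j =>
      choose q hq a ha hv using fun i => (hLsucc j i _).1 (hsj i)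
      rw [show s = fun i => e (max n (ℓ j + 1)) (le_max_left _ _) i (q i ++ [a i]) from funext hv]
      exact hcol _ _ (fun i => q i ++ [a i]) fun i =>
        ⟨ha i, by simp [(hLe j i _ (hq i)).2.1, hmax],
          (hLe j i _ (hq i)).2.2.trans (List.prefix_append _ _)⟩

end FA.HalpernLauchli
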